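import Mathlib.RepresentationTheory.Homological.GroupCohomology.LowDegree
import Mathlib.RepresentationTheory.Invariants

/-!
# S55 / layer KL, block Q (helper321): dictionary cochain form ↔ `groupCohomology` of `G ⧸ V`

Mathlib only.  For a `ℤ`-representation `B` of a group `G` and a normal subgroup `V`:

* `q1_core`  : `H¹(G ⧸ V, B^V) = 0` ⇒ every 1-cocycle of `G` inflated from `(G ⧸ V, B^V)` is the
  coboundary of a `V`-invariant element  (`KL.Q1Spec`, unfolded);
* `q2_core`  : cocycles inflated from `(G ⧸ V, B^V)` modulo coboundaries of inflated 1-cochains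
  is `H²(G ⧸ V, B^V)`  (`KL.Q2Spec`, for any pair of additive subgroups with the carriers of
  `KL.Z2At`, `KL.B2At`).
-/

set_option autoImplicit false

noncomputable section

namespace Fermat.Agent.S55.H321

open groupCohomology

variable {G : Type} [Group G] (B : Rep.{0, 0, 0} ℤ G) (V : Subgroup G) [V.Normal]

/-- the action of `G ⧸ V` on `B^V`, on representatives -/
lemma qinv_ρ_mk_val (g : G) (x : B.quotientToInvariants V) :
    (((B.quotientToInvariants V).ρ (g : G ⧸ V) x : B.quotientToInvariants V) : B) =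
      B.ρ g (x : B) := rfl

/-- elements of `B^V` are `V`-invariant -/
lemma qinv_val_inv (x : B.quotientToInvariants V) (s : G) (hs : s ∈ V) :
    B.ρ s (x : B) = (x : B) := x.2 ⟨s, hs⟩

/-- a `V`-invariant element of `B`, as an element of `B^V` -/
def qinvMk (b : B) (hb : ∀ s ∈ V, B.ρ s b = b) : B.quotientToInvariants V :=
  ⟨b, fun s => hb s.1 s.2⟩

@[simp] lemma qinvMk_val (b : B) (hb : ∀ s ∈ V, B.ρ s b = b) :
    ((qinvMk B V b hb : B.quotientToInvariants V) : B) = b := rfl

/-- inflation of 1-cochains -/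
def infl₁ (x : G ⧸ V → B.quotientToInvariants V) : G → B := fun g => ((x (g : G ⧸ V)) : B)

/-- inflation of 2-cochains -/
def infl₂ (f : (G ⧸ V) × (G ⧸ V) → B.quotientToInvariants V) : G × G → B :=
  fun p => ((f ((p.1 : G ⧸ V), (p.2 : G ⧸ V))) : B)

@[simp] lemma infl₁_apply (x : G ⧸ V → B.quotientToInvariants V) (g : G) :
    infl₁ B V x g = ((x (g : G ⧸ V)) : B) := rfl

@[simp] lemma infl₂_apply (f : (G ⧸ V) × (G ⧸ V) → B.quotientToInvariants V) (g h : G) :
    infl₂ B V f (g, h) = ((f ((g : G ⧸ V), (h : G ⧸ V))) : B) := rfl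

lemma infl₁_injective : Function.Injective (infl₁ B V) := by
  intro x y h
  funext q
  induction q using QuotientGroup.induction_on with
  | H g => exact Subtype.ext (congrFun h g)

lemma infl₂_injective : Function.Injective (infl₂ B V) := by
  intro x y h
  funext ⟨q, r⟩
  induction q using QuotientGroup.induction_on with
  | H g =>
    induction r using QuotientGroup.induction_on with
    | H h' => exact Subtype.ext (congrFun h (g, h'))

lemma infl₁_add (x y : G ⧸ V → B.quotientToInvariants V) :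
    infl₁ B V (x + y) = infl₁ B V x + infl₁ B V y := rfl

lemma infl₂_add (x y : (G ⧸ V) × (G ⧸ V) → B.quotientToInvariants V) :
    infl₂ B V (x + y) = infl₂ B V x + infl₂ B V y := rfl

lemma mk_mul_mem (g s : G) (hs : s ∈ V) : ((g * s : G) : G ⧸ V) = (g : G ⧸ V) := by
  rw [QuotientGroup.mk_mul, (QuotientGroup.eq_one_iff s).2 hs, mul_one]

/-- inflated 1-cochains are inflated -/
lemma infl₁_isAt (x : G ⧸ V → B.quotientToInvariants V) (g s : G) (hs : s ∈ V) :
    infl₁ B V x (g * s) = infl₁ B V x g ∧ B.ρ s (infl₁ B V x g) = infl₁ B V x g :=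
  ⟨by simp only [infl₁_apply, mk_mul_mem V g s hs], qinv_val_inv B V _ s hs⟩

/-- inflated 2-cochains are inflated -/
lemma infl₂_isAt (f : (G ⧸ V) × (G ⧸ V) → B.quotientToInvariants V) (g h s t : G)
    (hs : s ∈ V) (ht : t ∈ V) :
    infl₂ B V f (g * s, h * t) = infl₂ B V f (g, h) ∧
      B.ρ s (infl₂ B V f (g, h)) = infl₂ B V f (g, h) :=
  ⟨by simp only [infl₂_apply, mk_mul_mem V g s hs, mk_mul_mem V h t ht],
    qinv_val_inv B V _ s hs⟩

/-- every 1-cochain inflated from `(G ⧸ V, B^V)` is an inflation -/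
lemma exists_infl₁ (x : G → B)
    (hx : ∀ g s : G, s ∈ V → x (g * s) = x g ∧ B.ρ s (x g) = x g) :
    ∃ x' : G ⧸ V → B.quotientToInvariants V, infl₁ B V x' = x := by
  refine ⟨fun q => qinvMk B V (x q.out) fun s hs => (hx _ s hs).2, ?_⟩
  funext g
  obtain ⟨s, hs⟩ := QuotientGroup.mk_out_eq_mul V g
  show x (g : G ⧸ V).out = x g
  rw [hs]
  exact (hx g s s.2).1

/-- every 2-cochain inflated from `(G ⧸ V, B^V)` is an inflation -/
lemma exists_infl₂ (f : G × G → B)
    (hf : ∀ g h s t : G, s ∈ V → t ∈ V →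
      f (g * s, h * t) = f (g, h) ∧ B.ρ s (f (g, h)) = f (g, h)) :
    ∃ f' : (G ⧸ V) × (G ⧸ V) → B.quotientToInvariants V, infl₂ B V f' = f := by
  refine ⟨fun q => qinvMk B V (f (q.1.out, q.2.out)) fun s hs =>
    (hf _ _ s 1 hs V.one_mem).2, ?_⟩
  funext ⟨g, h⟩
  obtain ⟨s, hs⟩ := QuotientGroup.mk_out_eq_mul V g
  obtain ⟨t, ht⟩ := QuotientGroup.mk_out_eq_mul V h
  show f ((g : G ⧸ V).out, (h : G ⧸ V).out) = f (g, h)
  rw [hs, ht]
  exact (hf g h s t s.2 t.2).1

/-- `d⁰` commutes with inflation -/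
lemma d₀₁_infl (a : B.quotientToInvariants V) :
    (d₀₁ B).hom (a : B) = infl₁ B V ((d₀₁ (B.quotientToInvariants V)).hom a) := by
  funext g
  rfl

/-- `d¹` commutes with inflation -/
lemma d₁₂_infl (x : G ⧸ V → B.quotientToInvariants V) :
    (d₁₂ B).hom (infl₁ B V x) = infl₂ B V ((d₁₂ (B.quotientToInvariants V)).hom x) := by
  funext ⟨g, h⟩
  rfl

/-- `d²` commutes with inflation -/
lemma d₂₃_infl (f : (G ⧸ V) × (G ⧸ V) → B.quotientToInvariants V) (g h j : G) :
    (d₂₃ B).hom (infl₂ B V f) (g, h, j) =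
      (((d₂₃ (B.quotientToInvariants V)).hom f
        ((g : G ⧸ V), (h : G ⧸ V), (j : G ⧸ V)) : B.quotientToInvariants V) : B) := rfl

lemma infl₁_mem_cocycles₁_iff (x : G ⧸ V → B.quotientToInvariants V) :
    infl₁ B V x ∈ cocycles₁ B ↔ x ∈ cocycles₁ (B.quotientToInvariants V) := by
  constructor
  · intro h
    have h' : (d₁₂ B).hom (infl₁ B V x) = 0 := h
    rw [d₁₂_infl] at h'
    have : (d₁₂ (B.quotientToInvariants V)).hom x = 0 := infl₂_injective B V h'
    exact this
  · intro h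
    have h' : (d₁₂ (B.quotientToInvariants V)).hom x = 0 := h
    show (d₁₂ B).hom (infl₁ B V x) = 0
    rw [d₁₂_infl, h']
    rfl

lemma infl₂_mem_cocycles₂_iff (f : (G ⧸ V) × (G ⧸ V) → B.quotientToInvariants V) :
    infl₂ B V f ∈ cocycles₂ B ↔ f ∈ cocycles₂ (B.quotientToInvariants V) := by
  constructor
  · intro h
    have h' : (d₂₃ B).hom (infl₂ B V f) = 0 := h
    show (d₂₃ (B.quotientToInvariants V)).hom f = 0
    funext ⟨q, r, t⟩
    induction q using QuotientGroup.induction_on with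
    | H g =>
      induction r using QuotientGroup.induction_on with
      | H h'' =>
        induction t using QuotientGroup.induction_on with
        | H j =>
          apply Subtype.ext
          have := congrFun h' (g, h'', j)
          rw [d₂₃_infl] at this
          exact this
  · intro h
    have h' : (d₂₃ (B.quotientToInvariants V)).hom f = 0 := h
    show (d₂₃ B).hom (infl₂ B V f) = 0
    funext ⟨g, h'', j⟩
    rw [d₂₃_infl, h']
    rfl

/-- **KL-Q1**, unfolded. -/
theorem q1_core (h1 : Subsingleton (H1 (B.quotientToInvariants V)))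
    (f : G → B) (hf : f ∈ cocycles₁ B)
    (hat : ∀ g s : G, s ∈ V → f (g * s) = f g ∧ B.ρ s (f g) = f g) :
    ∃ a : B, (∀ s ∈ V, B.ρ s a = a) ∧ (d₀₁ B).hom a = f := by
  obtain ⟨x, rfl⟩ := exists_infl₁ B V f hat
  have hx : x ∈ cocycles₁ (B.quotientToInvariants V) := (infl₁_mem_cocycles₁_iff B V x).1 hf
  have h0 : H1π (B.quotientToInvariants V) ⟨x, hx⟩ = 0 := Subsingleton.elim _ _
  rw [H1π_eq_zero_iff] at h0
  obtain ⟨a, ha⟩ := h0
  refine ⟨(a : B), fun s hs => qinv_val_inv B V a s hs, ?_⟩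
  rw [d₀₁_infl]
  exact congrArg (infl₁ B V) ha

/-- **KL-Q2**, for any pair of additive subgroups `Z`, `Bd` of `G × G → B` whose carriers are the
2-cocycles inflated from `(G ⧸ V, B^V)`, resp. the coboundaries of the 1-cochains inflated from
`(G ⧸ V, B^V)`. -/
theorem q2_core (Z Bd : AddSubgroup (G × G → B))
    (hZ : ∀ f : G × G → B, f ∈ Z ↔ (f ∈ cocycles₂ B ∧ ∀ g h s t : G, s ∈ V → t ∈ V →
      f (g * s, h * t) = f (g, h) ∧ B.ρ s (f (g, h)) = f (g, h)))
    (hB : ∀ f : G × G → B, f ∈ Bd ↔ ∃ x : G → B,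
      (∀ g s : G, s ∈ V → x (g * s) = x g ∧ B.ρ s (x g) = x g) ∧ (d₁₂ B).hom x = f) :
    Nonempty ((↥Z ⧸ Bd.addSubgroupOf Z) ≃+ H2 (B.quotientToInvariants V)) := by
  have hmem : ∀ c : cocycles₂ (B.quotientToInvariants V), infl₂ B V c.1 ∈ Z := fun c =>
    (hZ _).2 ⟨(infl₂_mem_cocycles₂_iff B V c.1).2 c.2, fun g h s t hs ht =>
      infl₂_isAt B V c.1 g h s t hs ht⟩
  -- inflation of cocycles, as an additive map to `Z`
  let φ : cocycles₂ (B.quotientToInvariants V) →+ Z :=
    { toFun := fun c => ⟨infl₂ B V c.1, hmem c⟩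
      map_zero' := rfl
      map_add' := fun _ _ => rfl }
  have hφ : Function.Surjective φ := by
    rintro ⟨f, hf⟩
    obtain ⟨hfc, hfat⟩ := (hZ f).1 hf
    obtain ⟨f', rfl⟩ := exists_infl₂ B V f hfat
    exact ⟨⟨f', (infl₂_mem_cocycles₂_iff B V f').1 hfc⟩, rfl⟩
  let ψ : cocycles₂ (B.quotientToInvariants V) →+ (↥Z ⧸ Bd.addSubgroupOf Z) :=
    (QuotientAddGroup.mk' (Bd.addSubgroupOf Z)).comp φ
  have hψ : Function.Surjective ψ :=
    (QuotientAddGroup.mk'_surjective (Bd.addSubgroupOf Z)).comp hφ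
  let π : cocycles₂ (B.quotientToInvariants V) →+ H2 (B.quotientToInvariants V) :=
    (H2π (B.quotientToInvariants V)).hom.toAddMonoidHom
  have hπ : Function.Surjective π :=
    (ModuleCat.epi_iff_surjective (H2π (B.quotientToInvariants V))).1 inferInstance
  have hker : ψ.ker = π.ker := by
    ext c
    rw [AddMonoidHom.mem_ker, AddMonoidHom.mem_ker]
    have h1 : ψ c = 0 ↔ infl₂ B V c.1 ∈ Bd := by
      show (QuotientAddGroup.mk (φ c) : ↥Z ⧸ Bd.addSubgroupOf Z) = 0 ↔ _
      rw [QuotientAddGroup.eq_zero_iff, AddSubgroup.mem_addSubgroupOf]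
      rfl
    have h2 : π c = 0 ↔ (c : (G ⧸ V) × (G ⧸ V) → B.quotientToInvariants V) ∈
        coboundaries₂ (B.quotientToInvariants V) := H2π_eq_zero_iff c
    rw [h1, h2, hB]
    constructor
    · rintro ⟨x, hx, hxc⟩
      obtain ⟨x', rfl⟩ := exists_infl₁ B V x hx
      rw [d₁₂_infl] at hxc
      exact ⟨x', infl₂_injective B V hxc⟩
    · rintro ⟨x', hx'⟩
      refine ⟨infl₁ B V x', fun g s hs => infl₁_isAt B V x' g s hs, ?_⟩
      rw [d₁₂_infl]
      exact congrArg (infl₂ B V) hx'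
  exact ⟨(QuotientAddGroup.quotientKerEquivOfSurjective ψ hψ).symm.trans
    ((QuotientAddGroup.quotientAddEquivOfEq hker).trans
      (QuotientAddGroup.quotientKerEquivOfSurjective π hπ))⟩

end Fermat.Agent.S55.H321

end
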